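import Fermat.Agent.MUL.Orig.S05.H27.C2
import Fermat.Agent.MUL.Lib.MultRed.Comp.Rho

/-!
# Lib/MultRed/Comp/Cyc: the component function on a cyclic group of odd prime order

Abstract combinatorics (no curves).  `ρ : G → Γ` with values in `[0, h]`, `ρ 0 = 0`, satisfying the
unordered-pair relation modulo `h + h` (`S05H27.PairRel`), and `Q` with `p • Q = 0`, `ρ Q ≠ 0`,
`p` an odd prime.  Then `h + h = p • g` for some `g > 0`, there is a multiple `Q₁ = i₀ • Q` with
`ρ Q₁ = g`, and every multiple of `Q` other than `0`, `Q₁`, `-Q₁` has `ρ ≥ g + g`.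
Owner: helper45 (cluster E', seat E-L / L1).
-/

set_option autoImplicit false

namespace Fermat.Agent.MultRed.Comp

open S05H27

section Cyc

variable {G : Type*} [AddCommGroup G] {Γ : Type*} [AddCommGroup Γ] [LinearOrder Γ]
  [IsOrderedAddMonoid Γ]

lemma nonneg_of_zsmul_nonneg {g : Γ} (hg : 0 < g) {z : ℤ} (h : 0 ≤ z • g) : 0 ≤ z :=
  (zsmul_le_zsmul_iff_left hg (m := 0) (n := z)).mp (by simpa using h)

/-- multiples of `Q` only depend on the residue modulo `p` -/
lemma zsmul_eq_of_dvd_sub {Q : G} {p : ℕ} (hQ : p • Q = 0) {i j : ℤ} (h : (p : ℤ) ∣ i - j) :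
    i • Q = j • Q := by
  obtain ⟨c, hc⟩ := h
  have e : i = j + c * p := by linarith
  rw [e, add_smul, mul_smul, natCast_zsmul, hQ, smul_zero, add_zero]

/-- an integer in `[0, p/2]` congruent to `±1` modulo the odd number `p` is `1` -/
lemma eq_one_of_small {p : ℕ} (hp3 : 3 ≤ p) {z : ℤ} (h0 : 0 ≤ z) (h2 : 2 * z ≤ p)
    (h : (p : ℤ) ∣ z - 1 ∨ (p : ℤ) ∣ z + 1) : z = 1 := by
  have hp : (3 : ℤ) ≤ p := by exact_mod_cast hp3
  rcases h with h | h
  · have : z - 1 = 0 := Int.eq_zero_of_abs_lt_dvd h (by rw [abs_lt]; constructor <;> linarith)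
    linarith
  · have := Int.le_of_dvd (by linarith) h
    linarith

/-- **The component function on a cyclic group of odd prime order.** -/
theorem cyc_structure (ρ : G → Γ) (h : Γ) (hρ0 : ρ 0 = 0) (hρ : ∀ P, 0 ≤ ρ P ∧ ρ P ≤ h)
    (hR : PairRel ρ (h + h)) {p : ℕ} (hp : p.Prime) (hp2 : p ≠ 2) (Q : G) (hQ : p • Q = 0)
    (hQ0 : ρ Q ≠ 0) :
    ∃ (g : Γ) (i₀ : ℕ), 0 < g ∧ p • g = h + h ∧ ρ (i₀ • Q) = g ∧
      ∀ j : ℤ, j • Q = 0 ∨ j • Q = i₀ • Q ∨ j • Q = -(i₀ • Q) ∨ g + g ≤ ρ (j • Q) := by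
  have hp3 : 3 ≤ p := by
    have := hp.two_le
    omega
  have hpos : 0 < p := hp.pos
  have hpZ : (0 : ℤ) < p := by exact_mod_cast hpos
  have : Fact p.Prime := ⟨hp⟩
  set r := ρ Q with hr
  have hr0 : 0 < r := lt_of_le_of_ne (hρ Q).1 (Ne.symm hQ0)
  have hrh : r ≤ h := (hρ Q).2
  have hh : 0 < h := lt_of_lt_of_le hr0 hrh
  have hn : 0 < h + h := add_pos hh hh
  -- `p • r = m • n`
  obtain ⟨m, hm⟩ := rho_pow_of_torsion ρ (h + h) hρ0 hR Q p hQ
  have hm' : (p : ℤ) • r = m • (h + h) := by rw [natCast_zsmul]; exact hm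
  have hm0 : 0 < m := by
    have h1 : 0 < p • r := nsmul_pos hr0 hpos.ne'
    rw [hm] at h1
    have := (zsmul_lt_zsmul_iff_left hn (m := 0) (n := m)).mp (by simpa using h1)
    exact this
  have hm2 : 2 * m ≤ p := by
    have h1 : (p : ℤ) • r ≤ (p : ℤ) • h := zsmul_le_zsmul_right hpZ.le hrh
    have h2 : m • (h + h) = (2 * m) • h := by
      rw [mul_comm, mul_smul, two_smul]
    rw [hm', h2] at h1
    exact (zsmul_le_zsmul_iff_left hh).mp h1
  have hmp : ¬ (p : ℤ) ∣ m := by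
    intro hd
    have := Int.le_of_dvd hm0 hd
    linarith
  have hmZ : ((m : ℤ) : ZMod p) ≠ 0 := by
    rw [Ne, ZMod.intCast_zmod_eq_zero_iff_dvd]
    exact hmp
  -- Bezout
  have hcop : IsCoprime m (p : ℤ) := by
    rw [isCoprime_comm]
    exact (Prime.coprime_iff_not_dvd (Nat.prime_iff_prime_int.mp hp)).mpr hmp
  obtain ⟨a, b, hab⟩ := hcop
  set g := a • r + b • (h + h) with hg
  have hpg : p • g = h + h := by
    rw [← natCast_zsmul, hg, smul_add, smul_comm (p : ℤ) a r, hm', smul_smul, smul_smul,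
      ← add_smul]
    have : a * m + (p : ℤ) * b = 1 := by linarith
    rw [this, one_smul]
  have hpg' : (p : ℤ) • g = h + h := by rw [natCast_zsmul]; exact hpg
  have hg0 : 0 < g := by
    by_contra hc
    rw [not_lt] at hc
    have : p • g ≤ 0 := nsmul_nonpos hc p
    rw [hpg] at this
    exact absurd hn (not_lt.mpr this)
  have hrg : r = m • g := by
    have h1 : p • (r - m • g) = 0 := by
      rw [← natCast_zsmul, smul_sub, hm', smul_comm (p : ℤ) m g, hpg', sub_self]
    exact sub_eq_zero.mp (nsmul_eq_zero_imp hpos h1)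
  -- the key description of `ρ` on the multiples of `Q`
  have key : ∀ j : ℤ, ∃ z : ℤ, ρ (j • Q) = z • g ∧ 0 ≤ z ∧ 2 * z ≤ p ∧
      ((z : ZMod p) = (j : ZMod p) * (m : ZMod p) ∨
        (z : ZMod p) = -((j : ZMod p) * (m : ZMod p))) := by
    intro j
    set j' : ℕ := (j % p).toNat with hj'
    have hj'Z : ((j' : ℕ) : ℤ) = j % p := Int.toNat_of_nonneg (Int.emod_nonneg j hpZ.ne')
    have hjQ : j • Q = j' • Q := by
      rw [← natCast_zsmul Q j', hj'Z]
      apply zsmul_eq_of_dvd_sub hQ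
      exact Int.dvd_sub_self_of_emod_eq rfl |>.mul_left (-1) |> fun h => by
        have : j - j % (p : ℤ) = -1 * (j % (p : ℤ) - j) := by ring
        rw [this]; exact h
    have hjZ : ((j' : ℕ) : ZMod p) = (j : ZMod p) := by
      have : (((j' : ℕ) : ℤ) : ZMod p) = ((j % p : ℤ) : ZMod p) := by rw [hj'Z]
      rw [Int.cast_natCast] at this
      rw [this]
      simp
    have hsim := (rho_nsmul_simN ρ (h + h) hρ0 hR Q j').1
    have hbound := hρ (j • Q)
    have fin : ∀ z : ℤ, ρ (j • Q) = z • g → (z : ZMod p) = (j : ZMod p) * (m : ZMod p) ∨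
        (z : ZMod p) = -((j : ZMod p) * (m : ZMod p)) →
        ∃ z : ℤ, ρ (j • Q) = z • g ∧ 0 ≤ z ∧ 2 * z ≤ p ∧
          ((z : ZMod p) = (j : ZMod p) * (m : ZMod p) ∨
            (z : ZMod p) = -((j : ZMod p) * (m : ZMod p))) := by
      intro z hz hzc
      refine ⟨z, hz, ?_, ?_, hzc⟩
      · apply nonneg_of_zsmul_nonneg hg0
        rw [← hz]; exact hbound.1
      · have h1 : ρ (j • Q) + ρ (j • Q) ≤ h + h := add_le_add hbound.2 hbound.2
        rw [hz, ← hpg', ← two_smul ℤ (z • g), smul_smul] at h1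
        exact (zsmul_le_zsmul_iff_left hg0).mp h1
    obtain ⟨k, hk | hk⟩ := hsim
    · refine fin ((j' : ℤ) * m + k * p) ?_ (Or.inl ?_)
      · rw [hjQ, hk, add_smul, mul_smul, mul_smul, hpg', ← hrg, natCast_zsmul]
      · push_cast
        rw [hjZ]
        simp
    · refine fin (-((j' : ℤ) * m) + k * p) ?_ (Or.inr ?_)
      · rw [hjQ, hk, add_smul, neg_smul, mul_smul, mul_smul, hpg', ← hrg, natCast_zsmul]
      · push_cast
        rw [hjZ]
        simp
  -- the distinguished multiple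
  set i₀ : ℕ := (a % p).toNat with hi₀
  have hi₀Z : ((i₀ : ℕ) : ℤ) = a % p := Int.toNat_of_nonneg (Int.emod_nonneg a hpZ.ne')
  have hi₀c : ((i₀ : ℕ) : ZMod p) * (m : ZMod p) = 1 := by
    have h1 : (((i₀ : ℕ) : ℤ) : ZMod p) = (a : ZMod p) := by
      rw [hi₀Z]; simp
    rw [Int.cast_natCast] at h1
    rw [h1]
    have h2 : ((a * m + b * (p : ℤ) : ℤ) : ZMod p) = 1 := by rw [hab]; simp
    push_cast at h2
    simpa using h2
  have dvd_of_cast : ∀ x : ℤ, (x : ZMod p) = 0 → (p : ℤ) ∣ x := fun x hx =>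
    (ZMod.intCast_zmod_eq_zero_iff_dvd x p).mp hx
  have hρi₀ : ρ (i₀ • Q) = g := by
    obtain ⟨z, hz, hz0, hz2, hzc⟩ := key (i₀ : ℤ)
    rw [natCast_zsmul] at hz
    have hz1 : z = 1 := by
      apply eq_one_of_small hp3 hz0 hz2
      rcases hzc with hzc | hzc
      · left
        apply dvd_of_cast
        push_cast
        rw [hzc, Int.cast_natCast, hi₀c, sub_self]
      · right
        apply dvd_of_cast
        push_cast
        rw [hzc, Int.cast_natCast, hi₀c]
        ring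
    rw [hz, hz1, one_smul]
  refine ⟨g, i₀, hg0, hpg, hρi₀, ?_⟩
  intro j
  obtain ⟨z, hz, hz0, hz2, hzc⟩ := key j
  have hmul : ∀ x : ZMod p, x * (m : ZMod p) = 0 → x = 0 := fun x hx =>
    (mul_eq_zero.mp hx).resolve_right hmZ
  rcases lt_trichotomy z 1 with hlt | heq | hgt
  · -- `z = 0`
    have hz' : z = 0 := by omega
    left
    rw [hz'] at hzc
    have hj0 : (j : ZMod p) = 0 := by
      apply hmul
      rcases hzc with hzc | hzc
      · rw [← hzc]; simp
      · have : ((0 : ℤ) : ZMod p) = 0 := by simp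
        rw [this] at hzc
        exact neg_eq_zero.mp hzc.symm
    have := dvd_of_cast j hj0
    have e := zsmul_eq_of_dvd_sub (i := j) (j := 0) hQ (by simpa using this)
    rw [e, zero_smul]
  · -- `z = 1`
    right
    rw [heq] at hzc
    rcases hzc with hzc | hzc
    · left
      have hj0 : ((j - i₀ : ℤ) : ZMod p) = 0 := by
        apply hmul
        push_cast
        rw [sub_mul, ← hzc, hi₀c]
        simp
      have e := zsmul_eq_of_dvd_sub (i := j) (j := (i₀ : ℤ)) hQ (dvd_of_cast _ hj0)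
      rw [e, natCast_zsmul]
    · right; left
      have hj0 : ((j - -(i₀ : ℤ) : ℤ) : ZMod p) = 0 := by
        apply hmul
        push_cast
        rw [sub_mul, neg_mul, hi₀c]
        have : (j : ZMod p) * (m : ZMod p) = -1 := by
          have h1 : ((1 : ℤ) : ZMod p) = 1 := by simp
          rw [h1] at hzc
          rw [hzc]; ring
        rw [this]; ring
      have e := zsmul_eq_of_dvd_sub (i := j) (j := -(i₀ : ℤ)) hQ (dvd_of_cast _ hj0)
      rw [e, neg_smul, natCast_zsmul]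
  · -- `z ≥ 2`
    right; right; right
    rw [hz, ← two_smul ℤ g]
    exact zsmul_le_zsmul_left hg0.le (by omega)

end Cyc

end Fermat.Agent.MultRed.Comp
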